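/-
GATE-F (S44) / node GF-END-ASM, file 1 (helper96): **the END of GRAPH v2 — `end₁` as a theorem,
for an arbitrary class `x`, plus the `W_p`-twisted form for `end₂`**.

Frame: `N = M' * p`, `p ∤ M'`, `5 ≤ p`, `A | p`, nodes `P`, `Q` of ANY nodal frame
`H : NodalHyp (redCompatFN N A h) P Q C C₁ C₂ g c n₀` of `X₀(N)` at `A`.
Let `x ∈ Kum_p(F_N)` with
* `T_ℓ x = a_ℓ(W) x`           for every good prime `ℓ ∤ M' p`,
* `trop₁ x = 0`                (`x ∈ V^f`),
* `x ∉ ker r₁`                 (`kerRed N A p`).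
Then `W.IsResiduallyModularOfLevel p M'` (`level_of_eigen₁`).  Chain (helper17's recipe, 6051):
a Gauss-unit representative `u` (helper86 `exists_rep_of_mem_Vf1`) has `p ∣ div ū`;
`FresBar (M' p) A = FresBar M' A` (helper's `FresBar_mul_eq`) transports `ū` to level `M'`;
GF-D2 (`d2Export_of_F1` + `formsToFunctions`, helper62 + helper45) gives an `A`-integral cusp form
`f` of level `M'` with `θ ū = ū · b̄(q)`; `b̄ ≠ 0` by GF-D1 (helper34
`exists_residue_ne_zero_of_notMem_kerRed`); GF-D3 (helper17 `heig_of_d2_eigen`) gives the formal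
`T_ℓ`-eigen relations and GF-D4 (helper23 `isResiduallyModularOfLevel_of_modEigen`) concludes.

`level_of_eigen₂` : the same for `x ∉ ker r₂` with the hypothesis `trop₁ (W_p x) = 0`
(apply `level_of_eigen₁` to `W_p x`: `W_p` commutes with `T_ℓ`, and `W_p x ∈ ker r₁ ⟺ x ∈ ker r₂`).
-/
import Fermat.Agent.GF.Top.Provider44Z
import Fermat.Agent.GF.D1.Bridge
import Fermat.Agent.GF.D2.Asm
import Fermat.Agent.GF.D2.F1.Main
import Fermat.Agent.GF.D3.Bridge
import Fermat.Agent.GF.D4.DS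
import Fermat.Agent.GF.Trop.Modular
import Fermat.Agent.GK.Flat.PsiFNGood
import Fermat.Agent.GB.A.HeckeW.Units

set_option autoImplicit false
set_option linter.unusedSectionVars false
set_option linter.style.haveILetI false

noncomputable section

namespace Fermat.Agent.GF.End

open AlgebraicCurve IntermediateField Module IsLocalRing ModularCurve
open Fermat.Agent.S24 Fermat.Agent.S24_helper62 Fermat.Agent.RRh45 Fermat.Agent.RR
open Fermat.Agent.GJ.J1 Fermat.Agent.GJ.J1.Val Fermat.Agent.GJ.J1.InstGen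
open Fermat.Agent.GK.MultiVal Fermat.Agent.GK.BallTwo Fermat.Agent.GK.NodalGraded
open Fermat.Agent.GS.Nodal.LSR2 Fermat.Agent.GS.Nodal.Inst Fermat.Agent.GS.Nodal.ROfSurj2
open Fermat.Agent.GJ Fermat.Agent.GJ.KumGroup Fermat.Agent.GJ.Kum.KumType
open Fermat.Agent.GK.UQ Fermat.Agent.GK.New Fermat.Agent.GK.AL Fermat.Agent.GK.UqKronecker
open Fermat.Agent.GB.A.A6.ECDet Fermat.Agent.GB.A.A6.EigQ
open Fermat.Agent.GF.Setup.Plane Fermat.Agent.GF.Setup.S0
open Fermat.Agent.GF.Trop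

attribute [local instance] finiteResidues_FN hasPrincipalDivisors_FN nonempty_place_FN
  isAlgClosed_res finiteResidues_Fres hasPrincipalDivisors_Fres nonempty_place_Fres

/-! ### transport of "`n` divides the divisor" along an equality of intermediate fields -/

section Transport

variable {k L : Type*} [Field k] [Field L] [Algebra k L]

theorem dvd_ord_equivOfEq {F₁ F₂ : IntermediateField k L} (h : F₁ = F₂) (n : ℤ) (u : F₁)
    (hu : ∀ Q : Place k F₁, n ∣ Q.ord u) :
    ∀ Q : Place k F₂, n ∣ Q.ord (IntermediateField.equivOfEq h u) := by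
  subst h
  intro Q
  have : IntermediateField.equivOfEq (rfl : F₁ = F₁) u = u := by
    rw [IntermediateField.equivOfEq_rfl]; rfl
  rw [this]
  exact hu Q

theorem coe_equivOfEq {F₁ F₂ : IntermediateField k L} (h : F₁ = F₂) (u : F₁) :
    ((IntermediateField.equivOfEq h u : F₂) : L) = (u : L) := by
  subst h
  rw [IntermediateField.equivOfEq_rfl]; rfl

end Transport

/-! ### the core of (END) -/

section Core

variable (W : WeierstrassCurve ℤ) {p : ℕ} [Fact p.Prime] (hp5 : 5 ≤ p) {M' : ℕ} [NeZero M']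
  (hpM' : ¬ p ∣ M') (A : ValuationSubring Kbar) (hA : A.LiesOverPrime p)
variable {ι : Type} [Fintype ι] {P Q : ι → Place (ResidueField A) (FresBar (M' * p) A)}
variable {C : Divisor Kbar (FN (M' * p))}
  {C₁ C₂ : Divisor (ResidueField A) (FresBar (M' * p) A)} {g c : ℤ} {n₀ : ℕ}
variable (H : NodalHyp (redCompatFN (M' * p) A (exactDvd hpM')) P Q C C₁ C₂ g c n₀)

include hp5 H hA in
/-- **(END), first component**: a `T_ℓ`-eigenclass (eigenvalues `a_ℓ(W)`, good `ℓ ∤ M' p`) of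
`Kum_p(F_{M' p})` with `trop₁ = 0` which is NOT in `ker r₁` gives level `M'`. -/
theorem level_of_eigen₁ {x : Additive (Kum Kb (FK (M' * p)) p)}
    (hT : ∀ (ℓ : ℕ) (hℓ : ℓ.Prime), W.IsGoodPrimeFor ℓ → ∀ hℓM : ¬ ℓ ∣ M' * p,
      kumTl (M' * p) p hℓ hℓM x = ((W.apOfModel ℓ : ℤ) : ZMod p) • x)
    (htrop : trop1FN (q := p) (M' * p) A P x = 0) (hker : x ∉ kerRed (M' * p) A p) :
    W.IsResiduallyModularOfLevel p M' := by
  have hp : p.Prime := Fact.out
  haveI : NeZero p := ⟨hp.ne_zero⟩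
  haveI : CharP (ResidueField A) p := Fermat.Agent.GJ.Kum.charP_residueField A hp hA
  have h : ExactDvd p (M' * p) := exactDvd hpM'
  obtain ⟨u, hu, rfl, hdiv⟩ := exists_rep_of_mem_Vf1 (M' * p) A h H hA
    (fun j => by rw [htrop]; rfl)
  -- transport of the reduction to the level `M'`
  have hEq : FresBar (M' * p) A = FresBar M' A :=
    Fermat.Agent.GK.PsiFNGood.FresBar_mul_eq A hA M' h
  have hdiv' := dvd_ord_equivOfEq hEq (p : ℤ) _ hdiv
  have hcoe := coe_equivOfEq hEq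
    ((redDataBar (M' * p) A).red ⟨((u : (FN (M' * p))ˣ) : FN (M' * p)), hu.1.2.1⟩)
  have hne0 : IntermediateField.equivOfEq hEq
      ((redDataBar (M' * p) A).red ⟨((u : (FN (M' * p))ˣ) : FN (M' * p)), hu.1.2.1⟩) ≠ 0 := by
    intro h0
    exact hu.1.red_ne_zero ((map_eq_zero_iff _ (IntermediateField.equivOfEq hEq).injective).mp h0)
  -- GF-D2
  have hD2 : Fermat.Agent.GF.D2.D2Export M' A iotaC p :=
    Fermat.Agent.GF.D2.Asm.d2Export_of_F1 M' A iotaC hp hA hpM' (by omega) (by omega)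
      (Fermat.Agent.GF.D2.F1.formsToFunctions M' iotaC)
  obtain ⟨f, b, hfb, hth⟩ := hD2 _ hne0 hdiv'
  rw [hcoe] at hth
  -- GF-D1
  have hne := Fermat.Agent.GF.D1.exists_residue_ne_zero_of_notMem_kerRed A hA u hu.1 hker b hth
  -- GF-D4
  refine Fermat.Agent.GF.D4.isResiduallyModularOfLevel_of_modEigen (M := M')
    (ι := iotaC.comp A.subtype) (red := IsLocalRing.residue A) f b W
    (CharP.cast_eq_zero (ResidueField A) p)
    (iotaC_injective.comp Subtype.val_injective) hfb hne ?_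
  intro ℓ hℓ hgood hℓM' hℓp n
  have hℓM : ¬ ℓ ∣ M' * p := by
    intro hd
    rcases (Nat.Prime.dvd_mul hℓ).1 hd with hd | hd
    · exact hℓM' hd
    · exact hℓp ((Nat.prime_dvd_prime_iff_eq hℓ hp).1 hd)
  haveI : NeZero ℓ := ⟨hℓ.ne_zero⟩
  have hℓk : (ℓ : ResidueField A) ≠ 0 := by
    intro h0
    have hd : p ∣ ℓ := (CharP.cast_eq_zero_iff (ResidueField A) p ℓ).1 h0
    exact hℓp ((Nat.prime_dvd_prime_iff_eq hp hℓ).1 hd).symm
  -- GF-D3
  exact Fermat.Agent.GF.D3.heig_of_d2_eigen A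
    (Fermat.Agent.GJ.Kum.KumGate.hnMemHyp (M' * p) hℓ hℓM)
    (Fermat.Agent.GJ.Kum.KumGate.hnDivHyp (M' * p) p hℓ hℓM) hℓk u hu.1 (W.apOfModel ℓ)
    (hT ℓ hℓ hgood hℓM) b hth n

end Core

end Fermat.Agent.GF.End
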