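/-
GATE-F (S44) / node GF-END-ASM, file 2 (helper96): **the field `end₁` of `FieldsAtZ` / `FieldsAtO`
as a THEOREM, binder-free, over EVERY copy `C ⊆ eigQ`, EVERY `A | p` and EVERY nodal frame.**

* `end₁_thm`      : minimal binders (`W`, `p ≥ 5`, `p ∤ M'`, `C`, `hC : C.Y0 ≤ eigQ`, `A | p`, any
                    `NodalHyp` frame) ⟹ `∀ x ∈ C.Y0, trop1FN x = 0 → x ∉ kerRed → level M'`;
* `end₁_of_frameO` : EXACTLY the binder list of `Provider44O.FieldsO` (helper61), conclusion = the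
                    field `FieldsAtO.end₁`;
* `end₁_of_frameZ` : EXACTLY the binder list of `Provider44Z.FieldsZ`, conclusion = `FieldsAtZ.end₁`;
* `end₂_thm`      : the second component from `trop1FN (W_p x) = 0` (what `trop_zero` for the copy
                    `W_p ∘ C` gives): `x ∈ C.Y0`, `x ∉ kerRed₂` ⟹ level `M'`.
-/
import Fermat.Agent.GF.End.Core
import Fermat.Agent.GF.Top.Provider44O

set_option autoImplicit false
set_option linter.unusedSectionVars false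
set_option linter.unusedVariables false
set_option linter.style.haveILetI false

noncomputable section

namespace Fermat.Agent.GF.End.Fields

open AlgebraicCurve IntermediateField Module IsLocalRing ModularCurve
open Fermat.Agent.S24 Fermat.Agent.S24_helper62 Fermat.Agent.RRh45 Fermat.Agent.RR
open Fermat.Agent.GJ.J1 Fermat.Agent.GJ.J1.Val Fermat.Agent.GJ.J1.InstGen
open Fermat.Agent.GK.MultiVal Fermat.Agent.GK.BallTwo Fermat.Agent.GK.NodalGraded
open Fermat.Agent.GS.Nodal.LSR2 Fermat.Agent.GS.Nodal.Inst Fermat.Agent.GS.Nodal.ROfSurj2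
open Fermat.Agent.GJ Fermat.Agent.GJ.KumGroup Fermat.Agent.GJ.Kum.KumType
open Fermat.Agent.GK.UQ Fermat.Agent.GK.New Fermat.Agent.GK.AL Fermat.Agent.GK.UqKronecker
open Fermat.Agent.GB.A.A6.ECDet Fermat.Agent.GB.A.A6.EigQ
open Fermat.Agent.GF.Setup.Plane Fermat.Agent.GF.Setup.S0
open Fermat.Agent.GF.Trop
open Fermat.Agent.GF.Top.S44TopOrd Fermat.Agent.GF.Top.CompW
open Fermat.Agent.GF.End

attribute [local instance] finiteResidues_FN hasPrincipalDivisors_FN nonempty_place_FN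
  isAlgClosed_res finiteResidues_Fres hasPrincipalDivisors_Fres nonempty_place_Fres

section Thm

variable (W : WeierstrassCurve ℤ) {p : ℕ} [Fact p.Prime] (hp5 : 5 ≤ p) {M' : ℕ} [NeZero M']
  (hpM' : ¬ p ∣ M') (C : Copy W p (M' * p))
  (hC : C.Y0 ≤ eigQ (M' * p) p (Sset W (M' * p) p) (hMS W (M' * p) p) (aW W))
  (A : ValuationSubring Kbar) (hA : A.LiesOverPrime p)
variable {ι : Type} [Fintype ι] {P Q : ι → Place (ResidueField A) (FresBar (M' * p) A)}
variable {C₀ : Divisor Kbar (FN (M' * p))}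
  {C₁ C₂ : Divisor (ResidueField A) (FresBar (M' * p) A)} {g c : ℤ} {n₀ : ℕ}
variable (H : NodalHyp (redCompatFN (M' * p) A (exactDvd hpM')) P Q C₀ C₁ C₂ g c n₀)

include hC in
/-- `T_ℓ = a_ℓ(W)` on `Y₀`, in the shape of `level_of_eigen₁`. -/
theorem hT_of_mem {x : Additive (Kum Kb (FK (M' * p)) p)} (hx : x ∈ C.Y0) :
    ∀ (ℓ : ℕ) (hℓ : ℓ.Prime), W.IsGoodPrimeFor ℓ → ∀ hℓM : ¬ ℓ ∣ M' * p,
      kumTl (M' * p) p hℓ hℓM x = ((W.apOfModel ℓ : ℤ) : ZMod p) • x := by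
  intro ℓ hℓ hgood hℓM
  have hp : p.Prime := Fact.out
  have hℓM' : ¬ ℓ ∣ M' := fun hd => hℓM (Dvd.dvd.mul_right hd p)
  have hℓp : ℓ ≠ p := fun he => hℓM (he ▸ Dvd.intro_left M' rfl)
  exact C.kumTl_eq hC hx hℓ (notMem_of_good hp hℓ hgood hℓM' hℓp) hℓM

include hp5 hC hA H in
/-- **`end₁` as a theorem** (every copy, every `A | p`, every nodal frame). -/
theorem end₁_thm : ∀ x ∈ C.Y0, trop1FN (q := p) (M' * p) A P x = 0 →
    x ∉ kerRed (M' * p) A p → W.IsResiduallyModularOfLevel p M' :=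
  fun _ hx htrop hker =>
    level_of_eigen₁ W hp5 hpM' A hA H (hT_of_mem W C hC hx) htrop hker

include hp5 hC hA H in
/-- **`end₂` from `trop₁ (W_p x) = 0`**: `W_p x` is a `T_ℓ`-eigenclass outside `ker r₁`. -/
theorem end₂_thm : ∀ x ∈ C.Y0,
    trop1FN (q := p) (M' * p) A P (autEnd (wAut (exactDvd hpM')) p x) = 0 →
    x ∉ kerRed₂ (exactDvd hpM') A p → W.IsResiduallyModularOfLevel p M' := by
  intro x hx htrop hker
  have hp : p.Prime := Fact.out
  have hpS' : ∀ r : ℕ, r.Prime → r ∣ p → r ∈ Sset W (M' * p) p := fun r hr hrp => by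
    rw [(Nat.prime_dvd_prime_iff_eq hr hp).mp hrp]
    exact hpS W (M' * p) p
  exact level_of_eigen₁ W hp5 hpM' A hA H
    (hT_of_mem W (compW C (exactDvd hpM')) (compW_le_eigQ C (exactDvd hpM') hpS' hC)
      (mem_compW_Y0 C (exactDvd hpM') hx))
    htrop (notMem_kerRed_compW (exactDvd hpM') A hker)

end Thm

/-- **the field `end₁` in the binder shape of `Provider44O.FieldsO`** (helper61). -/
theorem end₁_of_frameO (W : WeierstrassCurve ℤ) (_ : W.Δ ≠ 0) (p : ℕ) [Fact p.Prime] (hp5 : 5 ≤ p)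
    (_ : W.IsSemistableModel) (_ : (p : ℤ) ∣ W.Δ)
    (_ : (W.map (Int.castRingHom ℚ)).IsPeuRamifieeAt p p)
    (_ : W.ModRepIsIrreducible p)
    (_ : OrdAt W p)
    (M' : ℕ) [NeZero M'] (hpM' : ¬ p ∣ M')
    (_ : W.IsResiduallyModularOfLevel p (M' * p))
    (_ : ¬ W.IsResiduallyModularOfLevel p M')
    (C : Copy W p (M' * p))
    (hC : C.Y0 ≤ eigQ (M' * p) p (Sset W (M' * p) p) (hMS W (M' * p) p) (aW W))
    (ℓ₀ : ℕ) (_ : ℓ₀.Prime) (_ : ℓ₀ ∉ Sset W (M' * p) p)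
    (_ : ((aW W ℓ₀ : ℤ) : ZMod p) ≠ ((ℓ₀ : ℕ) : ZMod p) + 1)
    (A : ValuationSubring Kbar) (hA : A.LiesOverPrime p) (ι : Type) [Fintype ι]
    (P Q : ι → Place (ResidueField A) (FresBar (M' * p) A)) (c : ℤ) (n₀ : ℕ)
    (_ : FrameFacts (M' * p) A (exactDvd hpM') P Q)
    (H : NodalHyp (redCompatFN (M' * p) A (exactDvd hpM')) P Q (CS (M' * p) (exactDvd hpM'))
      (Dτ (M' * p) A p) (Dτ (M' * p) A p) (genusRR Kbar (FN (M' * p))) c n₀) :
    ∀ x ∈ C.Y0, trop1FN (q := p) (M' * p) A P x = 0 → x ∉ kerRed (M' * p) A p →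
      W.IsResiduallyModularOfLevel p M' :=
  end₁_thm W hp5 hpM' C hC A hA H

/-- **the field `end₁` in the binder shape of `Provider44Z.FieldsZ`** (helper61). -/
theorem end₁_of_frameZ (W : WeierstrassCurve ℤ) (_ : W.Δ ≠ 0) (p : ℕ) [Fact p.Prime] (hp5 : 5 ≤ p)
    (_ : W.IsSemistableModel) (_ : (p : ℤ) ∣ W.Δ)
    (_ : (W.map (Int.castRingHom ℚ)).IsPeuRamifieeAt p p)
    (_ : W.ModRepIsIrreducible p)
    (M' : ℕ) [NeZero M'] (hpM' : ¬ p ∣ M')
    (_ : W.IsResiduallyModularOfLevel p (M' * p))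
    (_ : ¬ W.IsResiduallyModularOfLevel p M')
    (C : Copy W p (M' * p))
    (hC : C.Y0 ≤ eigQ (M' * p) p (Sset W (M' * p) p) (hMS W (M' * p) p) (aW W))
    (ℓ₀ : ℕ) (_ : ℓ₀.Prime) (_ : ℓ₀ ∉ Sset W (M' * p) p)
    (_ : ((aW W ℓ₀ : ℤ) : ZMod p) ≠ ((ℓ₀ : ℕ) : ZMod p) + 1)
    (A : ValuationSubring Kbar) (hA : A.LiesOverPrime p) (ι : Type) [Fintype ι]
    (P Q : ι → Place (ResidueField A) (FresBar (M' * p) A)) (c : ℤ) (n₀ : ℕ)
    (_ : FrameFacts (M' * p) A (exactDvd hpM') P Q)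
    (H : NodalHyp (redCompatFN (M' * p) A (exactDvd hpM')) P Q (CS (M' * p) (exactDvd hpM'))
      (Dτ (M' * p) A p) (Dτ (M' * p) A p) (genusRR Kbar (FN (M' * p))) c n₀) :
    ∀ x ∈ C.Y0, trop1FN (q := p) (M' * p) A P x = 0 → x ∉ kerRed (M' * p) A p →
      W.IsResiduallyModularOfLevel p M' :=
  end₁_thm W hp5 hpM' C hC A hA H

end Fermat.Agent.GF.End.Fields
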